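import Fermat.Agent.S41.D.Main
import Fermat.Agent.S41.E1.Main
import Fermat.Agent.S41.E1.Forms
import Fermat.Agent.S41.E2.Export
import Fermat.Agent.S41.K.Main
import Fermat.Agent.S41.Ih.Main
import Fermat.Agent.S41.Sel.Main
import Fermat.Agent.S44.Soft.New
import Fermat.Prelude.Def_FreyPackage_LevelRaising

/-!
# S41 / Top : assembly of level raising

`Sel.exists_prime` (prime selection) + `Ih.ihara` (Ihara's lemma for eigenvectors) + `K` (dictionary) give Ihara's lemma on the Kummer groups;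
`S44.Soft.exists_new` gives the eigenvector `x`; `E1.exists_pol_range` + `E2.range_Ur_sq_sub_one_le_Old` + `E1.exists_pol_kum` give the polynomial
if there is no `r`-new eigenform; `D.eq_zero` kills `y = pullA x - eps • pullB x`; Ihara's lemma then kills `x`.
-/

set_option autoImplicit false
set_option maxHeartbeats 400000

open WeierstrassCurve WeierstrassCurve.Affine WeierstrassCurve.Affine.Point

namespace Fermat.Agent.S41.Top

open Fermat.Agent.ES Fermat.Agent.SS Fermat.Agent.S44.Soft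

/-- Ihara's lemma for eigen-characters, from block I and the selection of primes. -/
theorem iharaHom {N r p : ℕ} [NeZero N] [NeZero r] [Fact p.Prime] (hr : r.Prime) (hrN : ¬ r ∣ N)
    (S : Finset ℕ) (hNS : ∀ q : ℕ, q.Prime → q ∣ N * r → q ∈ S) (a : ℕ → ℤ)
    (hsel : Ih.Sel p r S a) : K.IharaHom N r p S a := by
  intro φ1 φ2 h1 h2 e1 e2 hres
  exact Ih.ihara hr hrN S hNS a hsel φ1 φ2 h1.1 h2.1 e1 e2
    (fun g g1 g2 hi hc => K.rel_of_res hres g g1 g2 hi hc.1 hc.2.1 hc.2.2.1 hc.2.2.2)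

/-- the discriminant of an integral model of an elliptic curve. -/
theorem model_Δ_ne_zero (E : WeierstrassCurve ℚ) [E.IsElliptic] {W : WeierstrassCurve ℤ}
    (hW : W.IsIntegralModelOf E) : W.Δ ≠ 0 := by
  obtain ⟨C, hC⟩ := hW
  intro h0
  have h2 : (C • E).Δ = 0 := by
    rw [hC, WeierstrassCurve.map_Δ, h0]
    simp
  rw [WeierstrassCurve.variableChange_Δ] at h2
  rcases mul_eq_zero.1 h2 with h3 | h3
  · exact absurd h3 (pow_ne_zero _ (Units.ne_zero _))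
  · exact E.isUnit_Δ.ne_zero h3

/-- the sign. -/
theorem exists_sign {𝔪 : Ideal (integralClosure ℤ ℂ)} (hmax : 𝔪.IsMaximal) (r : ℕ)
    (b : integralClosure ℤ ℂ) (h : b ^ 2 - ((r : integralClosure ℤ ℂ) + 1) ^ 2 ∈ 𝔪) :
    ∃ eps : ℤ, eps * eps = 1 ∧
      b - ((eps * ((r : ℤ) + 1) : ℤ) : integralClosure ℤ ℂ) ∈ 𝔪 := by
  have h1 : (b - ((r : integralClosure ℤ ℂ) + 1)) * (b + ((r : integralClosure ℤ ℂ) + 1)) ∈ 𝔪 := by
    have : (b - ((r : integralClosure ℤ ℂ) + 1)) * (b + ((r : integralClosure ℤ ℂ) + 1))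
        = b ^ 2 - ((r : integralClosure ℤ ℂ) + 1) ^ 2 := by ring
    rw [this]
    exact h
  rcases hmax.isPrime.mem_or_mem h1 with h2 | h2
  · refine ⟨1, by norm_num, ?_⟩
    have : ((1 * ((r : ℤ) + 1) : ℤ) : integralClosure ℤ ℂ) = (r : integralClosure ℤ ℂ) + 1 := by
      push_cast
      ring
    rw [this]
    exact h2
  · refine ⟨-1, by norm_num, ?_⟩
    have : b - (((-1) * ((r : ℤ) + 1) : ℤ) : integralClosure ℤ ℂ)
        = b + ((r : integralClosure ℤ ℂ) + 1) := by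
      push_cast
      ring
    rw [this]
    exact h2

/-- **Level raising.** -/
theorem main
    (E : WeierstrassCurve ℚ) [E.IsElliptic] {W : WeierstrassCurve ℤ} (hW : W.IsIntegralModelOf E)
    {p N r : ℕ} (hp : p.Prime) (hp2 : p ≠ 2) (hN : 0 < N) (hr : r.Prime) (hrN : ¬ r ∣ N)
    (hrp : r ≠ p)
    (hirr : GaloisRepIsIrreducible (K := AlgebraicClosure ℚ) ℚ E p)
    (f : CuspForm (CongruenceSubgroup.Gamma0 N) 2) (𝔪 : Ideal (integralClosure ℤ ℂ))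
    (hf : f.IsNormalizedEigenform) (hmax : 𝔪.IsMaximal) (hpm : (p : integralClosure ℤ ℂ) ∈ 𝔪)
    (hcong : ∀ ℓ : ℕ, ℓ.Prime → W.IsGoodPrimeFor ℓ → ¬ ℓ ∣ N → ℓ ≠ p →
      ∃ a : integralClosure ℤ ℂ, (a : ℂ) = ModularFormClass.qCoeff f ℓ ∧
        a - ((W.apOfModel ℓ : ℤ) : integralClosure ℤ ℂ) ∈ 𝔪)
    (hLR : ∃ a : integralClosure ℤ ℂ, (a : ℂ) = ModularFormClass.qCoeff f r ∧
      a ^ 2 - ((r : integralClosure ℤ ℂ) + 1) ^ 2 ∈ 𝔪) :
    ∃ (g : CuspForm (CongruenceSubgroup.Gamma0 (N * r)) 2) (𝔪' : Ideal (integralClosure ℤ ℂ)),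
      g.IsNormalizedEigenform ∧ 𝔪'.IsMaximal ∧ (p : integralClosure ℤ ℂ) ∈ 𝔪' ∧
      (∀ ℓ : ℕ, ℓ.Prime → W.IsGoodPrimeFor ℓ → ¬ ℓ ∣ N * r → ℓ ≠ p →
        ∃ a : integralClosure ℤ ℂ, (a : ℂ) = ModularFormClass.qCoeff g ℓ ∧
          a - ((W.apOfModel ℓ : ℤ) : integralClosure ℤ ℂ) ∈ 𝔪') ∧
      g.IsNewAt r := by
  classical
  haveI : NeZero N := ⟨hN.ne'⟩
  haveI : NeZero r := ⟨hr.ne_zero⟩
  haveI : Fact p.Prime := ⟨hp⟩
  have hΔ : W.Δ ≠ 0 := model_Δ_ne_zero E hW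
  -- the finite set of bad primes
  let S : Finset ℕ := (N * r * p * W.Δ.natAbs).primeFactors
  have hprod : N * r * p * W.Δ.natAbs ≠ 0 :=
    mul_ne_zero (mul_ne_zero (mul_ne_zero hN.ne' hr.ne_zero) hp.ne_zero) (Int.natAbs_ne_zero.2 hΔ)
  have hmemS : ∀ q : ℕ, q.Prime → (q ∈ S ↔ q ∣ N * r ∨ q = p ∨ (q : ℤ) ∣ W.Δ) := by
    intro q hq
    rw [Nat.mem_primeFactors]
    constructor
    · rintro ⟨-, h, -⟩
      rcases (Nat.Prime.dvd_mul hq).1 h with h | h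
      · rcases (Nat.Prime.dvd_mul hq).1 h with h | h
        · exact Or.inl h
        · exact Or.inr (Or.inl ((Nat.prime_dvd_prime_iff_eq hq hp).1 h))
      · exact Or.inr (Or.inr (Int.natCast_dvd.2 h))
    · rintro (h | rfl | h)
      · exact ⟨hq, (h.mul_right _).mul_right _, hprod⟩
      · exact ⟨hq, (Dvd.intro_left (N * r) rfl).mul_right _, hprod⟩
      · exact ⟨hq, (Int.natCast_dvd.1 h).mul_left _, hprod⟩
  have hNrS : ∀ q : ℕ, q.Prime → q ∣ N * r → q ∈ S := fun q hq h => (hmemS q hq).2 (Or.inl h)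
  have hpS : p ∈ S := (hmemS _ hp).2 (Or.inr (Or.inl rfl))
  let a : ℕ → ℤ := fun ℓ => W.apOfModel ℓ
  by_contra hno
  -- Ihara's lemma
  have hsel : Ih.Sel p r S a := fun m o hm ho =>
    Sel.exists_prime E hW hp hp2 hr hrp hirr m o hm ho S
  have hI : K.IharaHom N r p S a := iharaHom hr hrN S hNrS a hsel
  have hIk : ∀ a1 a2 : Kum N p, a1 ∈ XX N p S a → a2 ∈ XX N p S a →
      pullA N r p a1 + pullB N r p a2 = 0 → a1 = 0 ∧ a2 = 0 := fun a1 a2 h1 h2 h =>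
    K.ihara_kum hp.pos hI (mem_XX.1 h1) (mem_XX.1 h2) h
  -- the eigenvector
  obtain ⟨b, hb, hb2⟩ := hLR
  obtain ⟨eps, heps, hbe⟩ := exists_sign hmax r b hb2
  let S₀ : Finset ℕ := S.erase r
  let a₀ : ℕ → ℤ := fun ℓ => if ℓ = r then eps * ((r : ℤ) + 1) else a ℓ
  have hS₀ : S₀ ⊆ S := Finset.erase_subset _ _
  have ha₀ : ∀ ℓ, ℓ ∉ S → a₀ ℓ = a ℓ := by
    intro ℓ hℓ
    have : ℓ ≠ r := by
      rintro rfl
      exact hℓ (hNrS _ hr (Dvd.intro_left N rfl))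
    exact if_neg this
  obtain ⟨x, hx0, hx⟩ := exists_new N p hp S₀
    (fun q hq h => Finset.mem_erase.2 ⟨fun e => hrN (e ▸ h), hNrS q hq (h.mul_right r)⟩)
    (Finset.mem_erase.2 ⟨fun e => hrp e.symm, hpS⟩) a₀ f hf 𝔪 hmax hpm (by
      intro ℓ hℓ hℓS
      by_cases hℓr : ℓ = r
      · have e : a₀ ℓ = eps * ((r : ℤ) + 1) := if_pos hℓr
        rw [e, hℓr]
        exact ⟨b, hb, hbe⟩
      · have hℓS' : ℓ ∉ S := fun h => hℓS (Finset.mem_erase.2 ⟨hℓr, h⟩)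
        have e : a₀ ℓ = W.apOfModel ℓ := if_neg hℓr
        rw [e]
        refine hcong ℓ hℓ (fun h => hℓS' ((hmemS ℓ hℓ).2 (Or.inr (Or.inr h))))
          (fun h => hℓS' (hNrS ℓ hℓ (h.mul_right r)))
          (fun h => hℓS' ((hmemS ℓ hℓ).2 (Or.inr (Or.inl h)))))
  have hxr : heckeKum N r hr hrN p x = (eps * ((r : ℤ) + 1)) • x := by
    have h := (mem_XX.1 hx) r hr hrN (Finset.notMem_erase r S)
    have e : a₀ r = eps * ((r : ℤ) + 1) := if_pos rfl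
    rwa [e] at h
  have hxS : x ∈ XX N p S a := by
    rw [mem_XX]
    intro ℓ _ hℓ hℓN hℓS
    rw [(mem_XX.1 hx) ℓ hℓ hℓN (fun h => hℓS (hS₀ h)), ha₀ ℓ hℓS]
  have hy : D.yy N r p eps x ∈ XX (N * r) p S a := D.yy_mem_XX hS₀ ha₀ eps hx
  -- the polynomial
  obtain ⟨Pol, hPol, hPol'⟩ := E1.exists_pol_range (N * r) p r hp hr (Dvd.intro_left N rfl) S hNrS a
    (by
      rintro ⟨g, 𝔪', hg, h𝔪', hp𝔪', hcong', hnew⟩
      refine hno ⟨g, 𝔪', hg, h𝔪', hp𝔪', fun ℓ hℓ hgood hℓM hℓp => hcong' ℓ hℓ ?_, hnew⟩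
      intro hℓS
      rcases (hmemS ℓ hℓ).1 hℓS with h | h | h
      · exact hℓM h
      · exact hℓp h
      · exact hgood h)
  obtain ⟨Pol', hP1, hP2⟩ := E1.exists_pol_kum hr hrN S hNrS a Pol hPol'
    (fun F => E2.range_Ur_sq_sub_one_le_Old hr hrN (hPol F)) hIk
  have hy0 : D.yy N r p eps x = 0 := D.eq_zero hp hr hrN S hNrS a heps hxr hy Pol' hP1 hP2
  -- conclusion
  have hx2 : (-eps) • x ∈ XX N p S a := by
    rw [mem_XX]
    intro ℓ _ hℓ hℓN hℓS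
    rw [map_zsmul, (mem_XX.1 hxS) ℓ hℓ hℓN hℓS, smul_comm]
  have hrel : pullA N r p x + pullB N r p ((-eps) • x) = 0 := by
    rw [map_zsmul, neg_smul, ← sub_eq_add_neg]
    exact hy0
  exact hx0 (hIk x _ hxS hx2 hrel).1

end Fermat.Agent.S41.Top
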